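import Mathlib
import Fermat.Agent.LT.H556.A0
import Fermat.Agent.LT.T1.Spec
import Fermat.Agent.LT.T5.Spec
import Fermat.Agent.LT.T5.H29.TwSpec

/-
PATCHED COPY (helper29) of helper675@39a99ea98 Fermat/Agent/LT/T5/H675/RayBound.lean (sha256 6c89b107)
for T5/Spec v4 + TwSpec v2: ONE token changed (`ht.supp` -> `ht`, the hypothesis is now
`HasCompactSupport φ`), namespace renamed to `Fermat.Agent.LT.T5.H29.V4.H675`.  Proof: helper675.
-/

/-!
# Row LT, tower T5, sub-leaf T5.07a `RayBoundC` (helper675) — OFF-MAIN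

Proves `T5.H29.RayBoundC s 𝔫` VERBATIM (sub-spec helper29@dedb60878 `LT/T5/H29/TwSpec.lean`,
sha256 08555f0f; on `T5/Spec.lean` 0d469f71, `T1/Spec.lean` e8ae48d6, `H556/A0.lean` 66d3374a).

`f = ‖det ·‖_𝔸 : GL₂(𝔸_K) → ℝ` is a continuous positive homomorphism (`T1.AdNormC`), trivial on
`GL₂(K)` (product formula), `f r = 2`; by `AutPreserves.slab` and `AutPreserves.ray`
`f(σ x) / f(x) ∈ (1/2, 2)`; `f` and `1/f` are bounded on the compact support of `φ`.
-/

set_option autoImplicit false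

open IsDedekindDomain NumberField MeasureTheory
open scoped MatrixGroups

noncomputable section

namespace Fermat.Agent.LT.T5.H29.V4.H675

open Fermat.Agent.LT.H556.A0 Fermat.Agent.LT.T5 Fermat.Agent.LT

attribute [local instance] Fermat.Agent.LT.T5.instMeasurableSpaceG

variable {K : Type} [Field K] [NumberField K]

/-- The module as a monoid homomorphism on the ideles (given `T1.AdNormC`). -/
def normHom675 (h : T1.AdNormC K) : (Adl K)ˣ →* ℝ where
  toFun u := T1.adNorm K (u : Adl K)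
  map_one' := by
    have h1 := h.2.1 1 1
    have h0 := h.1 1
    rw [mul_one] at h1
    have h2 : T1.adNorm K ((1 : (Adl K)ˣ) : Adl K) * 1
        = T1.adNorm K ((1 : (Adl K)ˣ) : Adl K) * T1.adNorm K ((1 : (Adl K)ˣ) : Adl K) := by
      rw [mul_one]; exact h1
    exact (mul_left_cancel₀ h0.ne' h2).symm
  map_mul' := h.2.1

/-- `g ↦ ‖det g‖_𝔸` as a monoid homomorphism. -/
def detNorm675 (h : T1.AdNormC K) : G K →* ℝ :=
  (normHom675 h).comp Matrix.GeneralLinearGroup.det

theorem detNorm675_apply (h : T1.AdNormC K) (g : G K) :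
    detNorm675 h g = T1.adNorm K (Matrix.det (g : Matrix (Fin 2) (Fin 2) (Adl K))) := rfl

theorem detNorm675_apply' (h : T1.AdNormC K) (g : G K) :
    detNorm675 h g = T5.adNorm (Matrix.det (g : Matrix (Fin 2) (Fin 2) (Adl K))) := rfl

theorem detNorm675_pos (h : T1.AdNormC K) (g : G K) : 0 < detNorm675 h g :=
  h.1 (Matrix.GeneralLinearGroup.det g)

theorem continuous_detNorm675 (h : T1.AdNormC K) : Continuous (detNorm675 h) :=
  h.2.2.2.comp Matrix.GeneralLinearGroup.continuous_det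

theorem mem_slab_iff675 (h : T1.AdNormC K) (g : G K) :
    g ∈ slab K ↔ 1 ≤ detNorm675 h g ∧ detNorm675 h g < 2 := Iff.rfl

/-- Product formula: the module of the determinant is trivial on `GL₂(K)`. -/
theorem detNorm675_ratG (h : T1.AdNormC K) (δ : GL (Fin 2) K) :
    detNorm675 h (ratG δ) = 1 := by
  have h1 := h.2.2.1 (Matrix.GeneralLinearGroup.det δ)
  have h2 : Matrix.GeneralLinearGroup.det (ratG δ)
      = T1.ratUnit K (Matrix.GeneralLinearGroup.det δ) := by
    ext
    simp only [ratG, T1.ratUnit, Matrix.GeneralLinearGroup.map_det, Units.coe_map]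
    rfl
  show T1.adNorm K ((Matrix.GeneralLinearGroup.det (ratG δ) : (Adl K)ˣ) : Adl K) = 1
  rw [h2]
  exact h1

theorem infHom_det675 (w : InfinitePlace K) (g : G K) :
    infHom w (Matrix.det (g : Matrix (Fin 2) (Fin 2) (Adl K))) = Matrix.det (infComp w g) := by
  rw [infComp_eq_map, RingHom.map_det]
  rfl

theorem finHom_det675 (v : HeightOneSpectrum (𝓞 K)) (g : G K) :
    finHom v (Matrix.det (g : Matrix (Fin 2) (Fin 2) (Adl K))) = Matrix.det (finComp v g) := by
  rw [finComp_eq_map, RingHom.map_det]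
  rfl

theorem infHom_apply675 (w : InfinitePlace K) (x : Adl K) :
    infHom w x = InfinitePlace.Completion.extensionEmbedding w (x.1 w) := rfl

theorem finHom_apply675 (v : HeightOneSpectrum (𝓞 K)) (x : Adl K) :
    finHom v x = x.2 v := rfl

theorem norm_inf_det675 (w : InfinitePlace K) (g : G K) :
    ‖(Matrix.det (g : Matrix (Fin 2) (Fin 2) (Adl K))).1 w‖ = ‖Matrix.det (infComp w g)‖ := by
  rw [← infHom_det675, infHom_apply675]
  exact ((InfinitePlace.Completion.isometry_extensionEmbedding w).norm_map_of_map_zero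
    (map_zero _) _).symm

/-- The module of the determinant of the generator of the discrete ray is `2`. -/
theorem detNorm675_rayGen (h : T1.AdNormC K) {r : G K} (hr : IsRayGen r) :
    detNorm675 h r = 2 := by
  obtain ⟨hfin, t, ht, ht2, hinf⟩ := hr
  rw [detNorm675_apply]
  unfold T1.adNorm
  have hI : ∀ w : InfinitePlace K,
      ‖(Matrix.det (r : Matrix (Fin 2) (Fin 2) (Adl K))).1 w‖ = t ^ 2 := by
    intro w
    rw [norm_inf_det675, hinf w, Matrix.det_diagonal]
    simp only [Finset.prod_const, Finset.card_univ, Fintype.card_fin, norm_pow,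
      Complex.norm_real, Real.norm_eq_abs, abs_of_pos ht]
  have hF : ∀ v : HeightOneSpectrum (𝓞 K),
      ‖(Matrix.det (r : Matrix (Fin 2) (Fin 2) (Adl K))).2 v‖ = 1 := by
    intro v
    rw [← finHom_apply675, finHom_det675, show finComp v r = 1 from hfin v, Matrix.det_one,
      norm_one]
  simp only [hI, hF, finprod_one, mul_one]
  rw [Finset.prod_pow_eq_pow_sum, InfinitePlace.sum_mult_eq, ← pow_mul]
  exact ht2

/-- Every element can be moved into the slab by a power of the ray generator. -/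
theorem exists_zpow_mem_slab675 (h : T1.AdNormC K) {r : G K} (hr : IsRayGen r) (x : G K) :
    ∃ j : ℤ, x * r ^ j ∈ slab K := by
  obtain ⟨n, hn1, hn2⟩ := exists_mem_Ico_zpow (detNorm675_pos h x) (one_lt_two : (1 : ℝ) < 2)
  refine ⟨-n, ?_⟩
  rw [mem_slab_iff675 h, map_mul, map_zpow, detNorm675_rayGen h hr, zpow_neg]
  have h2 : (0 : ℝ) < 2 ^ n := zpow_pos (by norm_num) n
  constructor
  · rw [← div_eq_mul_inv, le_div_iff₀ h2, one_mul]
    exact hn1
  · rw [← div_eq_mul_inv, div_lt_iff₀ h2]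
    rw [zpow_add_one₀ (by norm_num : (2 : ℝ) ≠ 0)] at hn2
    linarith

/-- `‖det σ(x)‖ / ‖det x‖ ∈ (1/2, 2)`. -/
theorem detNorm675_onG (h : T1.AdNormC K) {s : AdelicAut K} {𝔫 : Ideal (𝓞 K)}
    {μ : Measure (G K)} {r : G K} (hr : IsRayGen r) (hP : AutPreserves s 𝔫 μ r) (x : G K) :
    detNorm675 h (s.onG x) < 2 * detNorm675 h x ∧
      detNorm675 h x < 2 * detNorm675 h (s.onG x) := by
  obtain ⟨j, hj⟩ := exists_zpow_mem_slab675 h hr x
  have hj' : s.onG (x * r ^ j) ∈ slab K := (hP.slab _).1 hj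
  rw [map_mul, map_zpow, hP.ray] at hj'
  rw [mem_slab_iff675 h, map_mul, map_zpow, detNorm675_rayGen h hr] at hj hj'
  have h2 : (0 : ℝ) < 2 ^ j := zpow_pos (by norm_num) j
  constructor
  · have : detNorm675 h (s.onG x) * 2 ^ j < (2 * detNorm675 h x) * 2 ^ j := by nlinarith [hj.1, hj'.2]
    exact lt_of_mul_lt_mul_right this h2.le
  · have : detNorm675 h x * 2 ^ j < (2 * detNorm675 h (s.onG x)) * 2 ^ j := by
      nlinarith [hj'.1, hj.2]
    exact lt_of_mul_lt_mul_right this h2.le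

/-- `f` and `1 / f` are bounded on compact sets. -/
theorem detNorm675_bdd (h : T1.AdNormC K) {C : Set (G K)} (hC : IsCompact C) :
    ∃ b : ℝ, ∀ g ∈ C, detNorm675 h g ≤ b ∧ (detNorm675 h g)⁻¹ ≤ b := by
  obtain ⟨b₁, hb₁⟩ := (hC.image (continuous_detNorm675 h)).bddAbove
  have hc : Continuous fun g : G K => (detNorm675 h g)⁻¹ :=
    (continuous_detNorm675 h).inv₀ fun g => (detNorm675_pos h g).ne'
  obtain ⟨b₂, hb₂⟩ := (hC.image hc).bddAbove
  refine ⟨max b₁ b₂, fun g hg => ⟨?_, ?_⟩⟩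
  · exact le_max_of_le_left (hb₁ (Set.mem_image_of_mem _ hg))
  · exact le_max_of_le_right (hb₂ (Set.mem_image_of_mem (fun g : G K => (detNorm675 h g)⁻¹) hg))

/-- **T5.07a (ray bound).** -/
theorem rayBound675 (s : AdelicAut K) (𝔫 : Ideal (𝓞 K)) : H29.RayBoundC s 𝔫 := by
  intro h μ r hr hP φ ht
  obtain ⟨b, hb⟩ := detNorm675_bdd h ht
  obtain ⟨N, hN⟩ := pow_unbounded_of_one_lt (2 * b) (one_lt_two : (1 : ℝ) < 2)
  refine ⟨N, fun x δ m hφ => ?_⟩
  have hmem : x⁻¹ * ratG δ * s.onG x * r ^ m ∈ tsupport φ := subset_tsupport _ hφ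
  obtain ⟨hb1, hb2⟩ := hb _ hmem
  rw [map_mul, map_mul, map_mul, map_inv, map_zpow, detNorm675_ratG, detNorm675_rayGen h hr,
    mul_one] at hb1 hb2
  obtain ⟨hs1, hs2⟩ := detNorm675_onG h hr hP x
  have hx := detNorm675_pos h x
  have hsx := detNorm675_pos h (s.onG x)
  have h2m : (0 : ℝ) < 2 ^ m := zpow_pos (by norm_num) m
  set a := detNorm675 h x with ha
  set c := detNorm675 h (s.onG x) with hc
  -- 2^m < 2 b
  have e1 : (2 : ℝ) ^ m < 2 ^ (N : ℤ) := by
    have : (2 : ℝ) ^ m < 2 * b := by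
      have h3 : a⁻¹ * c * 2 ^ m ≤ b := hb1
      have h4 : (1 : ℝ) / 2 < a⁻¹ * c := by
        rw [inv_mul_eq_div, div_lt_div_iff₀ (by norm_num) hx]
        linarith
      nlinarith
    rw [zpow_natCast]
    exact this.trans hN
  have e2 : (2 : ℝ) ^ (-m) < 2 ^ (N : ℤ) := by
    have : (2 : ℝ) ^ (-m) < 2 * b := by
      have h3 : (a⁻¹ * c * 2 ^ m)⁻¹ ≤ b := hb2
      rw [mul_inv, mul_inv, inv_inv, ← zpow_neg] at h3
      have h2m' : (0 : ℝ) < 2 ^ (-m) := zpow_pos (by norm_num) (-m)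
      have h4 : (1 : ℝ) / 2 < a * c⁻¹ := by
        rw [← div_eq_mul_inv, div_lt_div_iff₀ (by norm_num) hsx]
        linarith
      nlinarith
    rw [zpow_natCast]
    exact this.trans hN
  rw [zpow_lt_zpow_iff_right₀ (one_lt_two : (1 : ℝ) < 2)] at e1 e2
  omega

end Fermat.Agent.LT.T5.H29.V4.H675

end
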