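import Mathlib
import Fermat.Agent.LT.H556.A0
import Fermat.Agent.LT.T1.Spec
import Fermat.Agent.LT.T5.Spec
import Fermat.Agent.LT.T5.H29.TwSpec
import Fermat.Agent.LT.T1.H793.AdeleProj
import Fermat.Agent.LT.T1.H793.Height
import Fermat.Agent.LT.T1.H919.K0Compact
import Fermat.Agent.LT.T1.H919.SiegelTools

/-
PATCHED COPY (helper29) of helper151@572b7a9e6 Fermat/Agent/LT/T5/H151/SiegelTw.lean (sha256 7eec32a2)
for T5/Spec v4 + TwSpec v2: ONE token changed (`ht.supp` -> `ht`, the hypothesis is now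
`HasCompactSupport φ`), namespace renamed to `Fermat.Agent.LT.T5.H29.V4.H151`.  Proof: helper151.
-/

/-!
# Row LT, tower T5, sub-leaf T5.07d `SiegelTwC` (helper151) — OFF-MAIN

`siegelTwC151 s 𝔫 : T5.H29.SiegelTwC s 𝔫` (Prop of helper29 `T5/H29/TwSpec.lean`, sha256 08555f0f,
VERBATIM): the twisted Siegel estimate.  If `y = b k` has height `t > c₁` and
`φ(y⁻¹ δ σ(y) rᵐ) ≠ 0`, `|m| ≤ M`, then `δ` is upper triangular.

Proof.  `h = k g σ(k)⁻¹ = b⁻¹ δ σ(b) rᵐ` lies in the compact set `K⁰ · supp φ · σ(K⁰)⁻¹`; its lower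
left entry is `b₂₂⁻¹ δ₂₁ σ(b₁₁) ρᵐ` (`r = ρ · 1`).  If `δ₂₁ ≠ 0` this is an idele of module
`‖σ b₁₁‖ / ‖b₂₂‖ · 2^{m/2} > t / 2 · 2^{-M/2}` (product formula; `‖σ u‖ > ‖u‖ / 2` because `σ`
preserves the slab and the ray), and `BoxC` bounds it.

Tools: helper793 `AdeleProj`, `Height`; helper919 `K0Compact` (`isCompact_stdCompact919`),
`SiegelTools` (`rayAdl919`, `scalarG919`, `up919`), byte-identical copies.
-/

set_option autoImplicit false

open IsDedekindDomain NumberField MeasureTheory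
open scoped MatrixGroups Pointwise

noncomputable section

namespace Fermat.Agent.LT.T5.H29.V4.H151

open Fermat.Agent.LT.H556.A0 Fermat.Agent.LT.T5 Fermat.Agent.LT
open Fermat.Agent.LT.T1.H793 Fermat.Agent.LT.T1.H919

attribute [local instance] Fermat.Agent.LT.T5.instMeasurableSpaceG

variable {K : Type} [Field K] [NumberField K]

/-! ## The generator of the ray is a scalar matrix -/

/-- The generator of the discrete ray is the scalar matrix of an idele `ρ` with `‖ρ‖² = 2`. -/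
lemma rayGen_eq_scalar151 {r : G K} (hr : IsRayGen r) :
    ∃ ρ : (Adl K)ˣ, r = scalarG919 ρ ∧ 0 < T1.adNorm K (ρ : Adl K) ∧
      T1.adNorm K (ρ : Adl K) ^ 2 = 2 := by
  obtain ⟨hfin, t, ht0, ht2, hinf⟩ := hr
  refine ⟨Units.map (rayAdl919 K : ℝ →* Adl K) (Units.mk0 t ht0.ne'), ?_, ?_, ?_⟩
  · apply Units.ext
    rw [scalarG919_val]
    ext i j
    refine adl_ext793 (fun w => ?_) (fun v => ?_)
    · apply (InfinitePlace.Completion.extensionEmbedding w).injective
      have h1 : infComp w r i j = (Matrix.diagonal (fun _ => (t : ℂ)) : Matrix (Fin 2) (Fin 2) ℂ) i j := by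
        rw [hinf w]
      have h2 : infComp w r i j = InfinitePlace.Completion.extensionEmbedding w
          (projInf793 w ((r : Matrix (Fin 2) (Fin 2) (Adl K)) i j)) := rfl
      rw [← h2, h1]
      by_cases hij : i = j
      · subst hij
        rw [Matrix.diagonal_apply_eq, Matrix.diagonal_apply_eq]
        show (t : ℂ) = InfinitePlace.Completion.extensionEmbedding w (realTo919 w t)
        rw [extensionEmbedding_realTo919]
      · rw [Matrix.diagonal_apply_ne _ hij, Matrix.diagonal_apply_ne _ hij]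
        show (0 : ℂ) = InfinitePlace.Completion.extensionEmbedding w ((0 : Adl K).1 w)
        exact (map_zero _).symm
    · have h1 : finComp v r i j = (1 : Matrix (Fin 2) (Fin 2) (v.adicCompletion K)) i j := by
        rw [show finComp v r = 1 from hfin v]
      have h2 : finComp v r i j = projFin793 v ((r : Matrix (Fin 2) (Fin 2) (Adl K)) i j) := rfl
      rw [← h2, h1]
      by_cases hij : i = j
      · subst hij
        rw [Matrix.one_apply_eq, Matrix.diagonal_apply_eq]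
        rfl
      · rw [Matrix.one_apply_ne hij, Matrix.diagonal_apply_ne _ hij]
        rfl
  · show 0 < T1.adNorm K (rayAdl919 K t)
    rw [adNorm_rayAdl919, abs_of_pos ht0]
    exact pow_pos ht0 _
  · show T1.adNorm K (rayAdl919 K t) ^ 2 = 2
    rw [adNorm_rayAdl919, abs_of_pos ht0, ← pow_mul, mul_comm]
    exact ht2

/-! ## The module as a homomorphism on the ideles -/

/-- The module `‖·‖_𝔸` as a monoid homomorphism on the ideles. -/
def adNormHom151 (hN : T1.AdNormC K) : (Adl K)ˣ →* ℝ where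
  toFun x := T1.adNorm K (x : Adl K)
  map_one' := by
    have h1 := hN.2.1 1 1
    have h0 := hN.1 (1 : (Adl K)ˣ)
    rw [mul_one] at h1
    have h2 : T1.adNorm K ((1 : (Adl K)ˣ) : Adl K) * (T1.adNorm K ((1 : (Adl K)ˣ) : Adl K) - 1) = 0 := by
      linear_combination -h1
    rcases mul_eq_zero.mp h2 with h | h
    · exact absurd h h0.ne'
    · linarith
  map_mul' := hN.2.1

lemma adNormHom151_apply (hN : T1.AdNormC K) (x : (Adl K)ˣ) :
    adNormHom151 hN x = T1.adNorm K (x : Adl K) := rfl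

lemma adNormHom151_pos (hN : T1.AdNormC K) (x : (Adl K)ˣ) : 0 < adNormHom151 hN x := hN.1 x

/-- The determinant of `diag(x, 1) · ρ^j` as an idele. -/
lemma det_up_scalar151 (x ρ : (Adl K)ˣ) (j : ℤ) :
    Matrix.det ((up919 x 0 * scalarG919 (ρ ^ j) : G K) : Matrix (Fin 2) (Fin 2) (Adl K))
      = ((x * (ρ ^ j) ^ 2 : (Adl K)ˣ) : Adl K) := by
  rw [Units.val_mul, Matrix.det_mul, up919_val, scalarG919_val, Matrix.det_fin_two_of,
    Matrix.det_diagonal]
  simp only [Fin.prod_univ_two, Units.val_mul, Units.val_pow_eq_pow_val]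
  ring

/-- The module of the determinant of `diag(x, 1) · ρ^j`. -/
lemma adNorm_det_up_scalar151 (hN : T1.AdNormC K) (x ρ : (Adl K)ˣ) (j : ℤ) :
    T1.adNorm K (Matrix.det ((up919 x 0 * scalarG919 (ρ ^ j) : G K) :
        Matrix (Fin 2) (Fin 2) (Adl K)))
      = adNormHom151 hN x * (adNormHom151 hN ρ ^ 2) ^ j := by
  rw [det_up_scalar151, ← adNormHom151_apply hN, map_mul, map_pow, map_zpow]
  congr 1
  rw [← zpow_natCast, ← zpow_natCast, ← zpow_mul, ← zpow_mul, mul_comm]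

/-! ## The automorphism almost preserves the module -/

/-- `‖x‖ < 2 ‖σ x‖` for every idele `x`: `σ` preserves the slab and fixes the ray. -/
lemma adNorm_sigma_gt151 (hN : T1.AdNormC K) {s : AdelicAut K} {𝔫 : Ideal (𝓞 K)}
    {μ : Measure (G K)} {r : G K} (hr : IsRayGen r) (hP : AutPreserves s 𝔫 μ r)
    (x : (Adl K)ˣ) :
    T1.adNorm K (x : Adl K) < 2 * T1.adNorm K (s.σA (x : Adl K)) := by
  obtain ⟨ρ, hrρ, hρ0, hρ2⟩ := rayGen_eq_scalar151 hr
  have hρ2' : adNormHom151 hN ρ ^ 2 = 2 := hρ2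
  have ha : 0 < adNormHom151 hN x := adNormHom151_pos hN x
  obtain ⟨n, hn1, hn2⟩ := exists_mem_Ico_zpow (x := adNormHom151 hN x) (y := (2 : ℝ)) ha
    (by norm_num)
  -- the element of the slab
  have hrj : r ^ (-n) = scalarG919 (ρ ^ (-n)) := by
    rw [hrρ]
    exact (map_zpow (Units.map (Matrix.scalar (Fin 2) :
      Adl K →+* Matrix (Fin 2) (Fin 2) (Adl K)).toMonoidHom) ρ (-n)).symm
  have h2n : (0 : ℝ) < 2 ^ n := zpow_pos (by norm_num) n
  have hg : up919 x 0 * r ^ (-n) ∈ slab K := by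
    rw [hrj]
    show 1 ≤ T1.adNorm K _ ∧ T1.adNorm K _ < 2
    rw [adNorm_det_up_scalar151 hN, hρ2', zpow_neg]
    constructor
    · rw [le_mul_inv_iff₀ h2n, one_mul]
      exact hn1
    · rw [mul_inv_lt_iff₀ h2n]
      rw [zpow_add_one₀ (by norm_num : (2 : ℝ) ≠ 0), mul_comm] at hn2
      exact hn2
  have hg' := (hP.slab _).mp hg
  have hσ : s.onG (up919 x 0 * r ^ (-n))
      = up919 (Units.map (s.σA : Adl K →+* Adl K).toMonoidHom x) 0 * scalarG919 (ρ ^ (-n)) := by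
    rw [map_mul, map_zpow, hP.ray, hrj]
    congr 1
    have := map_up919 (s.σA : Adl K →+* Adl K) x 0
    rw [map_zero] at this
    exact this
  rw [hσ] at hg'
  have hg'' : 1 ≤ T1.adNorm K (Matrix.det ((up919 (Units.map (s.σA : Adl K →+* Adl K).toMonoidHom x) 0
      * scalarG919 (ρ ^ (-n)) : G K) : Matrix (Fin 2) (Fin 2) (Adl K))) := hg'.1
  rw [adNorm_det_up_scalar151 hN, hρ2', zpow_neg, le_mul_inv_iff₀ h2n, one_mul] at hg''
  have hσx : adNormHom151 hN (Units.map (s.σA : Adl K →+* Adl K).toMonoidHom x)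
      = T1.adNorm K (s.σA (x : Adl K)) := rfl
  rw [hσx] at hg''
  rw [zpow_add_one₀ (by norm_num : (2 : ℝ) ≠ 0)] at hn2
  have : adNormHom151 hN x = T1.adNorm K (x : Adl K) := rfl
  rw [this] at hn2
  linarith

/-! ## Entries -/

lemma onG_apply151 (s : AdelicAut K) (g : G K) (i j : Fin 2) :
    ((s.onG g : G K) : Matrix (Fin 2) (Fin 2) (Adl K)) i j
      = s.σA ((g : Matrix (Fin 2) (Fin 2) (Adl K)) i j) := rfl

lemma ratG_apply151 (δ : GL (Fin 2) K) (i j : Fin 2) :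
    ((ratG δ : G K) : Matrix (Fin 2) (Fin 2) (Adl K)) i j
      = algebraMap K (Adl K) ((δ : Matrix (Fin 2) (Fin 2) K) i j) := rfl

/-- The lower left entry of `b' δ σ(b) ρᵐ` for upper triangular `b'`, `b`. -/
lemma entry_one_zero151 (s : AdelicAut K) {b' b : G K} (hb' : T1.IsUpper K b')
    (hb : T1.IsUpper K b) (δ : GL (Fin 2) K) (c : (Adl K)ˣ) :
    ((b' * ratG δ * s.onG b * scalarG919 c : G K) : Matrix (Fin 2) (Fin 2) (Adl K)) 1 0
      = (b' : Matrix (Fin 2) (Fin 2) (Adl K)) 1 1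
        * algebraMap K (Adl K) ((δ : Matrix (Fin 2) (Fin 2) K) 1 0)
        * s.σA ((b : Matrix (Fin 2) (Fin 2) (Adl K)) 0 0) * (c : Adl K) := by
  have h1 : (b' : Matrix (Fin 2) (Fin 2) (Adl K)) 1 0 = 0 := hb'
  have h2 : (b : Matrix (Fin 2) (Fin 2) (Adl K)) 1 0 = 0 := hb
  have h3 : (Matrix.diagonal (fun _ => (c : Adl K)) : Matrix (Fin 2) (Fin 2) (Adl K)) 1 0 = 0 :=
    Matrix.diagonal_apply_ne _ (by decide)
  have h4 : (Matrix.diagonal (fun _ => (c : Adl K)) : Matrix (Fin 2) (Fin 2) (Adl K)) 0 0 = c :=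
    Matrix.diagonal_apply_eq _ _
  simp only [Units.val_mul, scalarG919_val, Matrix.mul_apply,
    Fin.sum_univ_two, h1, h2, h3, h4, ratG_apply151, onG_apply151, map_zero]
  ring

/-! ## The leaf -/

/-- **T5.07d, the twisted Siegel estimate** (Prop of helper29, VERBATIM). -/
theorem siegelTwC151 (s : AdelicAut K) (𝔫 : Ideal (𝓞 K)) : H29.SiegelTwC s 𝔫 := by
  intro hT hBox μ r hr hP φ ht M
  have hN := hT.adNorm
  obtain ⟨ρ, hrρ, hρ0, hρ2⟩ := rayGen_eq_scalar151 hr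
  -- the compact set of lower left entries
  have hK0 : IsCompact {k : G K | T1.IsStdCompact K k} := isCompact_stdCompact919
  have hC : IsCompact (tsupport φ) := ht
  have hQ0 : IsCompact ({k : G K | T1.IsStdCompact K k} * tsupport φ
      * (s.onG '' {k : G K | T1.IsStdCompact K k})⁻¹) :=
    (hK0.mul hC).mul (hK0.image hP.cont).inv
  have hQ := hQ0.image (continuous_entry919 (K := K) 1 0)
  obtain ⟨B, hB⟩ := hBox _ hQ
  have ha0 : 0 < adNormHom151 hN ρ := hρ0
  have ha2 : adNormHom151 hN ρ ^ 2 = 2 := hρ2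
  have ha1 : 1 ≤ adNormHom151 hN ρ := by nlinarith
  refine ⟨2 * |B| * adNormHom151 hN ρ ^ M, ?_⟩
  intro y t hht hct δ m hm hφ
  by_contra hγ
  obtain ⟨b, k, hb, hk, hy, htb⟩ := hht
  have hb' : T1.IsUpper K b⁻¹ := isUpper_inv793 hb
  -- the element of the compact set
  have hgC : y⁻¹ * ratG δ * s.onG y * r ^ m ∈ tsupport φ := subset_tsupport _ hφ
  have hrm : r ^ m = scalarG919 (ρ ^ m) := by
    rw [hrρ]
    exact (map_zpow (Units.map (Matrix.scalar (Fin 2) :
      Adl K →+* Matrix (Fin 2) (Fin 2) (Adl K)).toMonoidHom) ρ m).symm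
  have hc : scalarG919 (ρ ^ m) * (s.onG k)⁻¹ = (s.onG k)⁻¹ * scalarG919 (ρ ^ m) :=
    scalarG919_comm _ _
  have hh : k * (y⁻¹ * ratG δ * s.onG y * r ^ m) * (s.onG k)⁻¹
      = b⁻¹ * ratG δ * s.onG b * scalarG919 (ρ ^ m) := by
    rw [hy, map_mul, hrm]
    calc k * ((b * k)⁻¹ * ratG δ * (s.onG b * s.onG k) * scalarG919 (ρ ^ m)) * (s.onG k)⁻¹
        = b⁻¹ * ratG δ * s.onG b * (s.onG k * (scalarG919 (ρ ^ m) * (s.onG k)⁻¹)) := by
          simp only [mul_inv_rev, mul_assoc, mul_inv_cancel_left]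
      _ = b⁻¹ * ratG δ * s.onG b * scalarG919 (ρ ^ m) := by rw [hc, mul_inv_cancel_left]
  have hmem : b⁻¹ * ratG δ * s.onG b * scalarG919 (ρ ^ m)
      ∈ {k : G K | T1.IsStdCompact K k} * tsupport φ
        * (s.onG '' {k : G K | T1.IsStdCompact K k})⁻¹ := by
    rw [← hh]
    exact Set.mul_mem_mul (Set.mul_mem_mul hk hgC) (Set.inv_mem_inv.2 (Set.mem_image_of_mem _ hk))
  -- the units
  obtain ⟨ub0, hub0⟩ := (isUnit_diag793 hb).1
  obtain ⟨ub1, hub1⟩ := (isUnit_diag793 hb).2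
  have hinv11 : ((b⁻¹ : G K) : Matrix (Fin 2) (Fin 2) (Adl K)) 1 1 = ((ub1⁻¹ : (Adl K)ˣ) : Adl K) := by
    apply Units.eq_inv_of_mul_eq_one_left
    rw [hub1, ← mul_apply_one_one793 hb, mul_inv_cancel]
    simp
  -- the idele in the box
  have hentry := entry_one_zero151 s hb' hb δ (ρ ^ m)
  rw [hinv11, ← hub0] at hentry
  have hu : ((ub1⁻¹ * T1.ratUnit K (Units.mk0 _ hγ)
      * Units.map (s.σA : Adl K →+* Adl K).toMonoidHom ub0 * ρ ^ m : (Adl K)ˣ) : Adl K)
      = ((b⁻¹ * ratG δ * s.onG b * scalarG919 (ρ ^ m) : G K) :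
          Matrix (Fin 2) (Fin 2) (Adl K)) 1 0 := by
    rw [hentry]
    rfl
  have hbound := hB (ub1⁻¹ * T1.ratUnit K (Units.mk0 _ hγ)
      * Units.map (s.σA : Adl K →+* Adl K).toMonoidHom ub0 * ρ ^ m)
    (by rw [hu]; exact Set.mem_image_of_mem _ hmem)
  -- the module of the idele
  have hmod : T1.adNorm K ((ub1⁻¹ * T1.ratUnit K (Units.mk0 _ hγ)
      * Units.map (s.σA : Adl K →+* Adl K).toMonoidHom ub0 * ρ ^ m : (Adl K)ˣ) : Adl K)
      = (adNormHom151 hN ub1)⁻¹ * T1.adNorm K (s.σA (ub0 : Adl K)) * adNormHom151 hN ρ ^ m := by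
    rw [← adNormHom151_apply hN, map_mul, map_mul, map_mul, map_inv, map_zpow]
    have h1 : adNormHom151 hN (T1.ratUnit K (Units.mk0 _ hγ)) = 1 := hN.2.2.1 _
    rw [h1, mul_one]
    rfl
  rw [hmod] at hbound
  -- the estimate
  have h0 : 0 < adNormHom151 hN ub0 := adNormHom151_pos hN ub0
  have h1 : 0 < adNormHom151 hN ub1 := adNormHom151_pos hN ub1
  have hσ := adNorm_sigma_gt151 hN hr hP ub0
  have hσ' : adNormHom151 hN ub0 < 2 * T1.adNorm K (s.σA (ub0 : Adl K)) := hσ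
  have ht' : t = adNormHom151 hN ub0 / adNormHom151 hN ub1 := by
    rw [htb, ← hub0, ← hub1]
    rfl
  have hmM : -(M : ℤ) ≤ m := by omega
  have hpow : adNormHom151 hN ρ ^ (-(M : ℤ)) ≤ adNormHom151 hN ρ ^ m :=
    zpow_le_zpow_right₀ ha1 hmM
  have haM : 0 < adNormHom151 hN ρ ^ M := pow_pos ha0 M
  have hpow' : (adNormHom151 hN ρ ^ M)⁻¹ ≤ adNormHom151 hN ρ ^ m := by
    rw [zpow_neg, zpow_natCast] at hpow
    exact hpow
  have hB' : B ≤ |B| := le_abs_self B
  have hB0 : 0 ≤ |B| := abs_nonneg B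
  -- t / 2 < ‖σ b₁₁‖ / ‖b₂₂‖
  have hkey : t / 2 < (adNormHom151 hN ub1)⁻¹ * T1.adNorm K (s.σA (ub0 : Adl K)) := by
    rw [ht', div_div, div_lt_iff₀ (by positivity)]
    have : (adNormHom151 hN ub1)⁻¹ * T1.adNorm K (s.σA (ub0 : Adl K))
        * (adNormHom151 hN ub1 * 2) = 2 * T1.adNorm K (s.σA (ub0 : Adl K)) := by
      field_simp
    rw [this]
    exact hσ'
  have ht0 : 0 < t := by
    rw [ht']
    positivity
  have hlow : |B| < t / 2 * (adNormHom151 hN ρ ^ M)⁻¹ := by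
    rw [lt_mul_inv_iff₀ haM]
    linarith
  have h3 : t / 2 * (adNormHom151 hN ρ ^ M)⁻¹
      ≤ (adNormHom151 hN ub1)⁻¹ * T1.adNorm K (s.σA (ub0 : Adl K)) * adNormHom151 hN ρ ^ m :=
    mul_le_mul hkey.le hpow' (inv_nonneg.2 haM.le) (le_trans (by positivity) hkey.le)
  linarith

end Fermat.Agent.LT.T5.H29.V4.H151

end
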